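import Fermat.Agent.S31.Defs
import Fermat.Prelude.Def_CuspForm_HeckeLocal

/-!
# Row S59, layer G4: existence of the Hecke–Galois datum — interface (squad-lead helper7)

Goal (`G4Statement`): for a non-Eisenstein residual character `θ` of the anemic Hecke algebra
(`S ⊇ {p} ∪ primes(N)`), the Prelude ring `T = CuspForm.heckeLocal N S 𝒪 θ` carries a
`CuspForm.HeckeGaloisRepDatum`.  The algebraic fields are on main
(`Fermat.Agent.S59.H7.datumOfRep`); what is left is the representation `ρ_T`.

Pieces (each is a `Prop` below; prove `theorem foo : FooStatement`):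

* `RedStatement`     (RED)    `T` is reduced.
* `PointsStatement`  (POINTS) a reduced finite free local `𝒪`-algebra has a finite strict family
                              of `p`-adic points.
* `TraceFnStatement` (TRFN)   the traces of the S30-representations at the points glue to a
                              function `GQ → T` (Frobenius division + strictness + completeness).
* `DescentStatement` (DESC)   Wiles/Carayol descent: representations at a strict family of points
                              with traces in `T` and absolutely irreducible reduction come from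
                              a representation over `T`.
* `ResStatement`     (RES)    the reductions at the points are absolutely irreducible.
* `OddStatement`     (ODD)    the representations at the points are odd.

Plan, owners, status: `coord/S59-G4.md` on `origin/helper7`.
Only sorry-free definitions in this file; it is FROZEN once on main.
-/

set_option autoImplicit false

open Polynomial IsLocalRing

namespace Fermat.Agent.S59.G4

open Fermat.Agent.S31

/-- A `p`-adic point of `T` together with a Galois representation over its coefficient ring. -/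
structure RepPoint (p : ℕ) (T : Type) [CommRing T] : Type 1 where
  /-- the point -/
  pt : PadicPoint p T
  /-- the representation -/
  ρ : GaloisRepAdic pt.O

/-- The family of points is **strict**: the topology induced on `T` by the points is the
`𝔪_T`-adic one.  (For a Noetherian local `T` this implies joint injectivity.) -/
def IsStrict {p : ℕ} {T : Type} [CommRing T] [IsLocalRing T] (F : List (PadicPoint p T)) : Prop :=
  ∀ n : ℕ, ∃ n' : ℕ, ∀ t : T,
    (∀ P ∈ F, P.χ t ∈ maximalIdeal P.O ^ n') → t ∈ maximalIdeal T ^ n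

/-- Frobenius condition: `ρ` over `A` has the Hecke characteristic polynomials given by
`φ : 𝕋 → A` at all primes `ℓ ∉ S`, `ℓ ∤ N`. -/
def FrobCond {N : ℕ} [NeZero N] {S : Set ℕ} {A : Type} [CommRing A] [IsLocalRing A]
    (ρ : GaloisRepAdic A) (φ : CuspForm.heckeAlgebra N 2 S →+* A) : Prop :=
  ∀ (ℓ : ℕ) (hℓ : ℓ.Prime) (hℓN : ¬ ℓ ∣ N) (hℓS : ℓ ∉ S),
    ∀ B : ValuationSubring Qb, B.LiesOverPrime ℓ →
      ∀ σ : GQ, B.IsFrobeniusAt σ ℓ →
        LinearMap.charpoly (ρ.ρ σ) =
          X ^ 2 - C (φ (CuspForm.heckeAlgebra.T hℓ hℓN hℓS)) * X + C ((ℓ : A))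

/-- The same for a residual representation. -/
def ResFrobCond {N : ℕ} [NeZero N] {S : Set ℕ} {k : Type} [Field k]
    (ρ : ResidualGaloisRep k) (φ : CuspForm.heckeAlgebra N 2 S →+* k) : Prop :=
  ∀ (ℓ : ℕ) (hℓ : ℓ.Prime) (hℓN : ¬ ℓ ∣ N) (hℓS : ℓ ∉ S),
    ∀ B : ValuationSubring Qb, B.LiesOverPrime ℓ →
      ∀ σ : GQ, B.IsFrobeniusAt σ ℓ →
        LinearMap.charpoly (ρ.ρ σ) =
          X ^ 2 - C (φ (CuspForm.heckeAlgebra.T hℓ hℓN hℓS)) * X + C ((ℓ : k))

/-- `θ` is **non-Eisenstein**: it is the Frobenius character of an absolutely irreducible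
residual representation. -/
def NonEisenstein {N : ℕ} [NeZero N] {S : Set ℕ} {k : Type} [Field k]
    (θ : CuspForm.heckeAlgebra N 2 S →+* k) : Prop :=
  ∃ ρbar : ResidualGaloisRep k, ρbar.IsAbsolutelyIrreducible ∧ ResFrobCond ρbar θ

/-! ## The pieces -/

/-- **RED.** The local Hecke algebra is reduced (from the reducedness of the anemic Hecke
algebra, `Fermat.Agent.S31.H838.ssStatement`, by base change and localisation). -/
def RedStatement : Prop :=
  ∀ (N : ℕ) [NeZero N] (S : Set ℕ), (∀ q : ℕ, q.Prime → q ∣ N → q ∈ S) →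
    ∀ (𝒪 : Type) [CommRing 𝒪] [IsDomain 𝒪] [IsDiscreteValuationRing 𝒪]
      [IsAdicComplete (maximalIdeal 𝒪) 𝒪] [CharZero 𝒪]
      (θ : CuspForm.heckeAlgebra N 2 S →+* ResidueField 𝒪),
      IsReduced (CuspForm.heckeLocal N S 𝒪 θ)

/-- **POINTS.** A reduced local ring which is a finite free algebra over a complete DVR `𝒪`
(characteristic zero, finite residue field of characteristic `p`) has a finite strict family of
`p`-adic points, all of them local homomorphisms. -/
def PointsStatement : Prop :=
  ∀ (p : ℕ) [Fact p.Prime] (𝒪 : Type) [CommRing 𝒪] [IsDomain 𝒪] [IsDiscreteValuationRing 𝒪]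
    [IsAdicComplete (maximalIdeal 𝒪) 𝒪] [Finite (ResidueField 𝒪)] [CharZero 𝒪]
    (_hp𝒪 : (p : 𝒪) ∈ maximalIdeal 𝒪)
    (T : Type) [CommRing T] [IsLocalRing T] [Algebra 𝒪 T] [Module.Finite 𝒪 T] [Module.Free 𝒪 T]
    [IsReduced T],
    ∃ F : List (PadicPoint p T), IsStrict F ∧ ∀ P ∈ F, IsLocalHom P.χ

section Local

variable {p : ℕ} {T : Type} [CommRing T] [IsLocalRing T]

/-- The traces of the representations at the points glue to a function with values in `T`. -/
def HasTraceFn (F : List (RepPoint p T)) : Prop :=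
  ∃ τ : GQ → T, ∀ P ∈ F, ∀ σ : GQ, P.pt.χ (τ σ) = LinearMap.trace P.pt.O P.ρ.V (P.ρ.ρ σ)

/-- `ρ` over `T` specialises to the given representations at all points of the family (on the
level of characteristic polynomials). -/
def Specialises (ρ : GaloisRepAdic T) (F : List (RepPoint p T)) : Prop :=
  ∀ P ∈ F, ∀ σ : GQ,
    (LinearMap.charpoly (ρ.ρ σ)).map P.pt.χ = LinearMap.charpoly (P.ρ.ρ σ)

end Local

/-- **TRFN.** For a strict family of points of a complete Noetherian local ring `T` with Hecke
structure `π : 𝕋 → T`, representations at the points satisfying the Frobenius condition have a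
`T`-valued trace function. -/
def TraceFnStatement : Prop :=
  ∀ (p : ℕ) [Fact p.Prime] (N : ℕ) [NeZero N] (S : Finset ℕ)
    (T : Type) [CommRing T] [IsLocalRing T] [IsNoetherianRing T]
    [IsAdicComplete (maximalIdeal T) T]
    (π : CuspForm.heckeAlgebra N 2 (↑S : Set ℕ) →+* T)
    (F : List (RepPoint p T)), IsStrict (F.map RepPoint.pt) →
    (∀ P ∈ F, IsLocalHom P.pt.χ) →
    (∀ P ∈ F, FrobCond P.ρ (P.pt.χ.comp π)) → HasTraceFn F

/-- **DESC.** (`p` odd.)  Given a nonempty strict family of points of the complete Noetherian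
local ring `T`, representations at the points with determinant `-1` on every involution `≠ 1`
(oddness), with a `T`-valued trace function and absolutely irreducible reductions, there is a
representation over `T` specialising to all of them, with absolutely irreducible reduction. -/
def DescentStatement : Prop :=
  ∀ (p : ℕ) [Fact p.Prime] (_hp2 : p ≠ 2)
    (T : Type) [CommRing T] [IsLocalRing T] [IsNoetherianRing T]
    [IsAdicComplete (maximalIdeal T) T]
    (F : List (RepPoint p T)), F ≠ [] → IsStrict (F.map RepPoint.pt) →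
    (∀ P ∈ F, IsLocalHom P.pt.χ) →
    (∀ P ∈ F, ∀ c : GQ, c * c = 1 → c ≠ 1 → LinearMap.det (P.ρ.ρ c) = -1) →
    (∀ P ∈ F, P.ρ.residual.IsAbsolutelyIrreducible) →
    HasTraceFn F →
    ∃ ρ : GaloisRepAdic T, Specialises ρ F ∧ ρ.residual.IsAbsolutelyIrreducible

/-- **RES.** A representation over a complete DVR whose Frobenius characteristic polynomials
reduce to those of a non-Eisenstein `θ` has absolutely irreducible reduction.
(Frobenius division + Brauer–Nesbitt for 2-dimensional representations with an absolutely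
irreducible member.) -/
def ResStatement : Prop :=
  ∀ (p : ℕ) [Fact p.Prime] (_hp2 : p ≠ 2) (N : ℕ) [NeZero N] (S : Finset ℕ) (_hpS : p ∈ S)
    (O : Type) [CommRing O] [IsDomain O] [IsDiscreteValuationRing O]
    [IsAdicComplete (maximalIdeal O) O] [Finite (ResidueField O)] [CharZero O]
    (_hpO : (p : O) ∈ maximalIdeal O)
    (χ : CuspForm.heckeAlgebra N 2 (↑S : Set ℕ) →+* O)
    (_hθ : NonEisenstein ((residue O).comp χ))
    (ρ : GaloisRepAdic O), FrobCond ρ χ → ρ.residual.IsAbsolutelyIrreducible

/-- **ODD.** A representation over a complete DVR with `det ρ(Frob_ℓ) = ℓ` for all primes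
`ℓ ∉ S` (`p ∈ S`) has determinant `-1` on every involution `c ≠ 1` of `Gal(ℚ̄/ℚ)`.
(`det = ` cyclotomic by Frobenius division; an involution `≠ 1` inverts the roots of unity of
odd order: its fixed field `F` has `[ℚ̄ : F] = 2`, `-1` is not a square in `F` and sums of squares
of `F` are squares.) -/
def OddStatement : Prop :=
  ∀ (p : ℕ) [Fact p.Prime] (_hp2 : p ≠ 2) (N : ℕ) [NeZero N] (S : Finset ℕ) (_hpS : p ∈ S)
    (O : Type) [CommRing O] [IsDomain O] [IsDiscreteValuationRing O]
    [IsAdicComplete (maximalIdeal O) O] [Finite (ResidueField O)] [CharZero O]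
    (_hpO : (p : O) ∈ maximalIdeal O)
    (χ : CuspForm.heckeAlgebra N 2 (↑S : Set ℕ) →+* O)
    (ρ : GaloisRepAdic O), FrobCond ρ χ →
    ∀ c : GQ, c * c = 1 → c ≠ 1 → LinearMap.det (ρ.ρ c) = -1

/-! ## The goal -/

/-- **G4.** Existence of the Hecke–Galois datum on the Prelude ring `heckeLocal`. -/
def G4Statement : Prop :=
  ∀ (p : ℕ) [Fact p.Prime] (_hp2 : p ≠ 2) (N : ℕ) [NeZero N] (S : Finset ℕ) (_hpS : p ∈ S)
    (_hNS : ∀ q : ℕ, q.Prime → q ∣ N → q ∈ S)
    (𝒪 : Type) [CommRing 𝒪] [IsDomain 𝒪] [IsDiscreteValuationRing 𝒪]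
    [IsAdicComplete (maximalIdeal 𝒪) 𝒪] [Finite (ResidueField 𝒪)] [CharZero 𝒪]
    (_hp𝒪 : (p : 𝒪) ∈ maximalIdeal 𝒪)
    (θ : CuspForm.heckeAlgebra N 2 (↑S : Set ℕ) →+* ResidueField 𝒪) (_hθ : NonEisenstein θ)
    [Fact (CuspForm.HasIntegralStructure N 2)],
    ∃ H : CuspForm.HeckeGaloisRepDatum N (↑S : Set ℕ) 𝒪 θ
        (CuspForm.heckeLocal N (↑S : Set ℕ) 𝒪 θ),
      H.π = CuspForm.heckeLocal.π N (↑S : Set ℕ) 𝒪 θ

end Fermat.Agent.S59.G4
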