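import Fermat.Agent.S59.G4.Spec2
import Fermat.Agent.S31.H22.Assembly
import Fermat.Agent.S59.H307.Glue
import Fermat.Agent.S59.H540.DetCyc
import Fermat.Agent.S59.H7.HeckeLocalCore
import Fermat.Prelude.Def_GaloisRep_ComplexConjugation

/-!
# Row S59, layer G4 — assembly (helper7)

`g4_of : S30Statement → RedStatement → PointsStatement → TraceFnStatement → ResStatement2
  → G4Statement`.

Inputs on main: GLUE (`H307.exists_glued_rep_of_hausdorff`, helper307), G-DET
(`H540.detIsCyclotomic_of_charpoly_frob`, helper540), HL-CORE (`H7.datumOfRep`).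
-/

set_option autoImplicit false
set_option linter.unusedSectionVars false
set_option synthInstance.maxHeartbeats 400000
set_option maxHeartbeats 1000000

open Polynomial IsLocalRing

namespace Fermat.Agent.S59.G4

open Fermat.Agent.S31

/-! ### Lifting points through S30 -/

section

variable {p : ℕ} [Fact p.Prime] {N : ℕ} [NeZero N] {S : Finset ℕ}
  {T : Type} [CommRing T] [IsLocalRing T]

/-- `Q` is a lift of the point `P` to an extension of the coefficient ring. -/
def IsLiftOf (P : PadicPoint p T) (Q : RepPoint p T) : Prop :=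
  ∃ f : P.O →+* Q.pt.O, Function.Injective f ∧ IsLocalHom f ∧ Q.pt.χ = f.comp P.χ

/-- S30 at a point. -/
theorem exists_repPoint (h30 : S30Statement) (hpS : p ∈ S)
    (hNS : ∀ q : ℕ, q.Prime → q ∣ N → q ∈ S)
    (π : CuspForm.heckeAlgebra N 2 (↑S : Set ℕ) →+* T) (P : PadicPoint p T) :
    ∃ Q : RepPoint p T, IsLiftOf P Q ∧ FrobCond Q.ρ (Q.pt.χ.comp π) := by
  obtain ⟨O'', _, _, _, _, _, _, _, _, hloc, hinj, ρ, hfrob, -⟩ :=
    h30 p N S hpS hNS P.O P.hp (P.χ.comp π)
  have hp'' : (p : O'') ∈ maximalIdeal O'' := by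
    have h := P.hp
    rw [mem_maximalIdeal, mem_nonunits_iff] at h ⊢
    intro hu
    apply h
    have : IsUnit (algebraMap P.O O'' (p : P.O)) := by rwa [map_natCast]
    exact hloc.map_nonunit _ this
  refine ⟨⟨{ O := O'', hp := hp'', χ := (algebraMap P.O O'').comp P.χ }, ρ⟩,
    ⟨algebraMap P.O O'', hinj, hloc, rfl⟩, ?_⟩
  intro ℓ hℓ hℓN hℓS B hB σ hσ
  exact hfrob ℓ hℓ hℓN hℓS B hB σ hσ

/-- S30 at a list of points. -/
theorem exists_repPoints (h30 : S30Statement) (hpS : p ∈ S)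
    (hNS : ∀ q : ℕ, q.Prime → q ∣ N → q ∈ S)
    (π : CuspForm.heckeAlgebra N 2 (↑S : Set ℕ) →+* T) (F₀ : List (PadicPoint p T)) :
    ∃ F : List (RepPoint p T), List.Forall₂ IsLiftOf F₀ F ∧
      ∀ Q ∈ F, FrobCond Q.ρ (Q.pt.χ.comp π) := by
  induction F₀ with
  | nil => exact ⟨[], List.Forall₂.nil, fun Q hQ => absurd hQ List.not_mem_nil⟩
  | cons P F₀ ih =>
    obtain ⟨F, hF, hFrob⟩ := ih
    obtain ⟨Q, hQ, hQfrob⟩ := exists_repPoint h30 hpS hNS π P
    refine ⟨Q :: F, List.Forall₂.cons hQ hF, fun Q' hQ' => ?_⟩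
    rcases List.mem_cons.mp hQ' with rfl | h
    · exact hQfrob
    · exact hFrob Q' h

omit [Fact p.Prime] in
/-- Pulling back a power of the maximal ideal along a list of lifts. -/
theorem exists_pow_of_forall₂ {F₀ : List (PadicPoint p T)} {F : List (RepPoint p T)}
    (h : List.Forall₂ IsLiftOf F₀ F) (n' : ℕ) :
    ∃ n'' : ℕ, ∀ t : T, (∀ Q ∈ F, Q.pt.χ t ∈ maximalIdeal Q.pt.O ^ n'') →
      ∀ P ∈ F₀, P.χ t ∈ maximalIdeal P.O ^ n' := by
  induction h with
  | nil => exact ⟨0, fun t _ P hP => absurd hP List.not_mem_nil⟩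
  | @cons P Q F₀ F hPQ _ ih =>
    obtain ⟨n₁, hn₁⟩ := ih
    obtain ⟨f, hf, -, hχ⟩ := hPQ
    obtain ⟨k, hk⟩ := Fermat.Agent.S31.H22.exists_pow_comap_le f hf n'
    refine ⟨max n₁ k, fun t ht P' hP' => ?_⟩
    rcases List.mem_cons.mp hP' with rfl | h'
    · apply hk
      have h1 := ht Q List.mem_cons_self
      rw [hχ] at h1
      exact Ideal.pow_le_pow_right (le_max_right n₁ k) h1
    · exact hn₁ t (fun Q' hQ' =>
        Ideal.pow_le_pow_right (le_max_left n₁ k) (ht Q' (List.mem_cons_of_mem _ hQ'))) P' h'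

omit [Fact p.Prime] in
/-- Strictness passes to the lifts. -/
theorem isStrict_of_forall₂ {F₀ : List (PadicPoint p T)} {F : List (RepPoint p T)}
    (h : List.Forall₂ IsLiftOf F₀ F) (hF₀ : IsStrict F₀) : IsStrict (F.map RepPoint.pt) := by
  intro n
  obtain ⟨n', hn'⟩ := hF₀ n
  obtain ⟨n'', hn''⟩ := exists_pow_of_forall₂ h n'
  refine ⟨n'', fun t ht => hn' t (hn'' t fun Q hQ => ?_)⟩
  exact ht Q.pt (List.mem_map.mpr ⟨Q, hQ, rfl⟩)

omit [Fact p.Prime] in
/-- Locality passes to the lifts. -/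
theorem isLocalHom_of_forall₂ {F₀ : List (PadicPoint p T)} {F : List (RepPoint p T)}
    (h : List.Forall₂ IsLiftOf F₀ F) (hF₀ : ∀ P ∈ F₀, IsLocalHom P.χ) :
    ∀ Q ∈ F, IsLocalHom Q.pt.χ := by
  induction h with
  | nil => exact fun Q hQ => absurd hQ List.not_mem_nil
  | @cons P Q F₀ F hPQ _ ih =>
    intro Q' hQ'
    rcases List.mem_cons.mp hQ' with rfl | h'
    · obtain ⟨f, -, hfloc, hχ⟩ := hPQ
      have hP := hF₀ P List.mem_cons_self
      rw [hχ]
      exact ⟨fun a ha => hP.map_nonunit a (hfloc.map_nonunit _ ha)⟩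
    · exact ih (fun P' hP' => hF₀ P' (List.mem_cons_of_mem _ hP')) Q' h'

omit [Fact p.Prime] in
/-- The list of lifts is nonempty if the list of points is. -/
theorem ne_nil_of_forall₂ {F₀ : List (PadicPoint p T)} {F : List (RepPoint p T)}
    (h : List.Forall₂ IsLiftOf F₀ F) (hF₀ : F₀ ≠ []) : F ≠ [] := by
  cases h with
  | nil => exact absurd rfl hF₀
  | cons _ _ => exact List.cons_ne_nil _ _

omit [Fact p.Prime] in
/-- A strict family of points of a nontrivial local ring is nonempty. -/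
theorem ne_nil_of_isStrict {F₀ : List (PadicPoint p T)} (hF₀ : IsStrict F₀) : F₀ ≠ [] := by
  rintro rfl
  obtain ⟨n', hn'⟩ := hF₀ 1
  have h1 : (1 : T) ∈ maximalIdeal T ^ 1 := hn' 1 (fun P hP => absurd hP List.not_mem_nil)
  rw [pow_one] at h1
  exact (Ideal.ne_top_iff_one _).mp (Ideal.IsMaximal.ne_top inferInstance) h1

end

/-! ### Complex conjugation -/

/-- Complex conjugation inverts roots of unity. -/
theorem complexConjugation_apply_root {m : ℕ} (hm : m ≠ 0) {t : Qb} (ht : t ^ m = 1) :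
    complexConjugation t = t⁻¹ := by
  apply complexEmbedding.toRingHom.injective
  show complexEmbedding (complexConjugation t) = complexEmbedding t⁻¹
  rw [complexEmbedding_complexConjugation, map_inv₀]
  have hz : (complexEmbedding t) ^ m = 1 := by rw [← map_pow, ht, map_one]
  have hnorm : ‖complexEmbedding t‖ = 1 := by
    have h := congrArg norm hz
    rw [norm_pow, norm_one] at h
    exact (pow_eq_one_iff_of_nonneg (norm_nonneg _) hm).1 h
  exact (Complex.inv_eq_conj hnorm).symm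

section Conj

variable {A : Type} [CommRing A] [IsLocalRing A]

/-- A representation with cyclotomic determinant has determinant `-1` at complex conjugation. -/
theorem det_complexConjugation [IsNoetherianRing A] (ρ : GaloisRepAdic A) (p : ℕ)
    [Fact p.Prime] (hdet : ρ.DetIsCyclotomic p) :
    LinearMap.det (ρ.ρ complexConjugation) = -1 := by
  have hp : p.Prime := Fact.out
  obtain ⟨hpA, hcyc⟩ := hdet
  have hall : ∀ n : ℕ, LinearMap.det (ρ.ρ complexConjugation) + 1 ∈ maximalIdeal A ^ n := by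
    intro n
    have hpos : 1 ≤ p ^ n := Nat.one_le_pow _ _ hp.pos
    have h1 := hcyc n complexConjugation (p ^ n - 1) (fun μ hμ => by
      rw [complexConjugation_apply_root (pow_ne_zero n hp.ne_zero) hμ]
      have hμ0 : μ ≠ 0 := by
        rintro rfl
        rw [zero_pow (pow_ne_zero n hp.ne_zero)] at hμ
        exact zero_ne_one hμ
      apply inv_eq_of_mul_eq_one_right
      rw [← pow_succ', Nat.sub_add_cancel hpos, hμ])
    rw [Nat.cast_sub hpos, Nat.cast_one] at h1
    have h2 : ((p ^ n : ℕ) : A) ∈ Ideal.span {((p ^ n : ℕ) : A)} := Ideal.mem_span_singleton_self _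
    have h3 := Ideal.add_mem _ h1 h2
    have h4 : LinearMap.det (ρ.ρ complexConjugation) - (((p ^ n : ℕ) : A) - 1) +
        ((p ^ n : ℕ) : A) = LinearMap.det (ρ.ρ complexConjugation) + 1 := by ring
    rw [h4] at h3
    have hle : Ideal.span {((p ^ n : ℕ) : A)} ≤ maximalIdeal A ^ n := by
      rw [Ideal.span_singleton_le_iff_mem, Nat.cast_pow]
      exact Ideal.pow_mem_pow hpA n
    exact hle h3
  have h0 : LinearMap.det (ρ.ρ complexConjugation) + 1 ∈ ⨅ n, maximalIdeal A ^ n := by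
    rw [Ideal.mem_iInf]
    exact hall
  rw [Ideal.iInf_pow_eq_bot_of_isLocalRing _ (Ideal.IsMaximal.ne_top inferInstance)] at h0
  exact eq_neg_of_add_eq_zero_left (by simpa using h0)

/-- An involution of determinant `-1` in rank two has trace `0`. -/
theorem trace_eq_zero_of_involution (ρ : GaloisRepAdic A) (c : GQ) (hc : c * c = 1)
    (hdet : LinearMap.det (ρ.ρ c) = -1) : ρ.trace c = 0 := by
  obtain ⟨e, m, hm⟩ := Fermat.Agent.S59.H307.exists_realizes ρ
  rw [hm.trace_eq]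
  have hdet' : (m c).det = -1 := by
    have h1 : LinearMap.det (e.conj (ρ.ρ c)) = LinearMap.det (ρ.ρ c) := by
      rw [LinearEquiv.conj_apply]
      exact LinearMap.det_conj _ _
    rw [hm.conj_eq, LinearMap.det_toLin'] at h1
    rw [h1, hdet]
  have hsq : m c * m c = 1 := by rw [← map_mul, hc, map_one]
  set M := m c with hM
  have h00 := congrFun (congrFun hsq 0) 0
  have h01 := congrFun (congrFun hsq 0) 1
  rw [Matrix.mul_apply, Fin.sum_univ_two] at h00 h01
  rw [Matrix.one_apply_eq] at h00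
  rw [Matrix.one_apply_ne (by decide : (0 : Fin 2) ≠ 1)] at h01
  rw [Matrix.det_fin_two] at hdet'
  rw [Matrix.trace_fin_two]
  have hta : (M 0 0 + M 1 1) * M 0 0 = 0 := by linear_combination h00 + hdet'
  have htb : (M 0 0 + M 1 1) * M 0 1 = 0 := by linear_combination h01
  have : M 0 0 + M 1 1 = (M 0 0 + M 1 1) * M 0 0 * M 0 0 + (M 0 0 + M 1 1) * M 0 1 * M 1 0 := by
    linear_combination (-(M 0 0 + M 1 1)) * h00
  rw [this, hta, htb, zero_mul, zero_mul, add_zero]

end Conj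

/-! ### The main theorem -/

section Main

open CuspForm

variable {p : ℕ} [Fact p.Prime] {N : ℕ} [NeZero N] {S : Finset ℕ}
  {𝒪 : Type} [CommRing 𝒪] [IsDomain 𝒪] [IsDiscreteValuationRing 𝒪]
  [IsAdicComplete (maximalIdeal 𝒪) 𝒪]
  {θ : heckeAlgebra N 2 (↑S : Set ℕ) →+* ResidueField 𝒪}
  [Fact (HasIntegralStructure N 2)]

/-- `2` is a unit in a local ring whose maximal ideal contains an odd prime. -/
theorem isUnit_two_of_mem {A : Type} [CommRing A] [IsLocalRing A] (hp2 : p ≠ 2)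
    (hpA : (p : A) ∈ maximalIdeal A) : IsUnit (2 : A) := by
  have hp : p.Prime := Fact.out
  by_contra h2
  have h2m : (2 : A) ∈ maximalIdeal A := (mem_maximalIdeal _).mpr h2
  obtain ⟨k, hk⟩ := hp.eq_two_or_odd'.resolve_left hp2
  have h1 : (1 : A) = (p : A) - 2 * (k : A) := by
    rw [hk]; push_cast; ring
  have : (1 : A) ∈ maximalIdeal A := by
    rw [h1]
    exact Ideal.sub_mem _ hpA (Ideal.mul_mem_right _ _ h2m)
  exact (Ideal.ne_top_iff_one _).mp (Ideal.IsMaximal.ne_top inferInstance) this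

/-- `p` lies in the maximal ideal of the local Hecke algebra. -/
theorem natCast_mem_maximalIdeal_heckeLocal (hp𝒪 : (p : 𝒪) ∈ maximalIdeal 𝒪) :
    (p : heckeLocal N (↑S : Set ℕ) 𝒪 θ) ∈ maximalIdeal (heckeLocal N (↑S : Set ℕ) 𝒪 θ) := by
  rw [mem_maximalIdeal, mem_nonunits_iff] at hp𝒪 ⊢
  intro hu
  apply hp𝒪
  have : IsUnit (algebraMap 𝒪 (heckeLocal N (↑S : Set ℕ) 𝒪 θ) (p : 𝒪)) := by rwa [map_natCast]
  exact IsLocalHom.map_nonunit _ this

/-- **G4 from its pieces.** -/
theorem g4_of (h30 : S30Statement) (hRed : RedStatement) (hPts : PointsStatement)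
    (hTr : TraceFnStatement) (hRes : ResStatement2) : G4Statement := by
  intro p _ hp2 N _ S hpS hNS 𝒪 _ _ _ _ _ _ hp𝒪 θ hθ _
  classical
  have hNS' : ∀ q : ℕ, q.Prime → q ∣ N → q ∈ (↑S : Set ℕ) := fun q hq hqN =>
    Finset.mem_coe.mpr (hNS q hq hqN)
  set T := heckeLocal N (↑S : Set ℕ) 𝒪 θ with hT
  set π := heckeLocal.π N (↑S : Set ℕ) 𝒪 θ with hπ
  have : IsReduced T := hRed N (↑S : Set ℕ) hNS' 𝒪 θ
  have hpT : (p : T) ∈ maximalIdeal T := natCast_mem_maximalIdeal_heckeLocal hp𝒪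
  have h2T : IsUnit (2 : T) := isUnit_two_of_mem hp2 hpT
  -- points
  obtain ⟨F₀, hF₀strict, hF₀loc⟩ := hPts p 𝒪 hp𝒪 T
  obtain ⟨F, hlift, hfrob⟩ := exists_repPoints h30 hpS hNS π F₀
  have hstrict : IsStrict (F.map RepPoint.pt) := isStrict_of_forall₂ hlift hF₀strict
  have hloc : ∀ Q ∈ F, IsLocalHom Q.pt.χ := isLocalHom_of_forall₂ hlift hF₀loc
  have hne : F ≠ [] := ne_nil_of_forall₂ hlift (ne_nil_of_isStrict hF₀strict)
  -- trace function
  obtain ⟨τ, hτ⟩ := hTr p N S T π F hstrict hloc hfrob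
  -- the indexed family
  have hlen : 0 < F.length := List.length_pos_iff.mpr hne
  have htop : ∀ n : ℕ, ∃ (Fs : Finset (Fin F.length)) (n' : ℕ), ∀ t : T,
      (∀ i ∈ Fs, (F.get i).pt.χ t ∈ maximalIdeal (F.get i).pt.O ^ n') →
        t ∈ maximalIdeal T ^ n := by
    intro n
    obtain ⟨n', hn'⟩ := hstrict n
    refine ⟨Finset.univ, n', fun t ht => hn' t fun P hP => ?_⟩
    obtain ⟨Q, hQ, rfl⟩ := List.mem_map.mp hP
    obtain ⟨i, rfl⟩ := List.get_of_mem hQ
    exact ht i (Finset.mem_univ i)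
  have hinj : ∀ t : T, (∀ i : Fin F.length, (F.get i).pt.χ t = 0) → t = 0 := by
    intro t ht
    apply IsHausdorff.haus (I := maximalIdeal T) inferInstance t
    intro n
    obtain ⟨Fs, n', hF⟩ := htop n
    have : t ∈ maximalIdeal T ^ n := hF t fun i _ => by rw [ht i]; exact Ideal.zero_mem _
    rw [SModEq.zero, smul_eq_mul, Ideal.mul_top]
    exact this
  -- oddness at complex conjugation
  have hpQ : ∀ Q ∈ F, (p : Q.pt.O) ∈ maximalIdeal Q.pt.O := fun Q _ => Q.pt.hp
  have htrc : ∀ Q ∈ F, Q.ρ.trace complexConjugation = 0 := by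
    intro Q hQ
    apply trace_eq_zero_of_involution Q.ρ complexConjugation complexConjugation_mul_self
    apply det_complexConjugation Q.ρ p
    refine Fermat.Agent.S59.H540.detIsCyclotomic_of_charpoly_frob Q.ρ p Q.pt.hp
      (S ∪ N.primeFactors)
      (fun ℓ => if h : ℓ.Prime ∧ ¬ ℓ ∣ N ∧ ℓ ∉ (↑S : Set ℕ) then
        Q.pt.χ (π (heckeAlgebra.T h.1 h.2.1 h.2.2)) else 0) ?_
    intro ℓ hℓ hℓS P hP σ hσ
    have hℓS' : ℓ ∉ (↑S : Set ℕ) := fun h => hℓS (Finset.mem_union_left _ (Finset.mem_coe.mp h))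
    have hℓN : ¬ ℓ ∣ N := fun h =>
      hℓS (Finset.mem_union_right _ (Nat.mem_primeFactors.mpr ⟨hℓ, h, NeZero.ne N⟩))
    rw [dif_pos ⟨hℓ, hℓN, hℓS'⟩]
    exact hfrob Q hQ ℓ hℓ hℓN hℓS' P hP σ hσ
  have hτc : τ complexConjugation = 0 := by
    apply hinj
    intro i
    rw [hτ (F.get i) (List.get_mem F i)]
    exact htrc (F.get i) (List.get_mem F i)
  -- residual irreducibility at the points
  have h2k : (2 : ResidueField 𝒪) ≠ 0 := by
    have h2𝒪 : IsUnit (2 : 𝒪) := isUnit_two_of_mem hp2 hp𝒪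
    intro h0
    have : residue 𝒪 (2 : 𝒪) = 0 := by rw [map_ofNat]; exact h0
    rw [residue_eq_zero_iff] at this
    exact (mem_maximalIdeal _).mp this h2𝒪
  have hresπ : ∀ t, residue T (π t) = ResidueField.map (algebraMap 𝒪 T) (θ t) :=
    Fermat.Agent.S59.H7.residue_π N (↑S : Set ℕ) 𝒪 θ
  have hirr : ∀ Q ∈ F, Q.ρ.residual.IsIrreducible := by
    intro Q hQ
    have : IsLocalHom Q.pt.χ := hloc Q hQ
    refine (hRes N S (ResidueField 𝒪) h2k θ hθ Q.pt.O
      ((ResidueField.map Q.pt.χ).comp (ResidueField.map (algebraMap 𝒪 T)))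
      (Q.pt.χ.comp π) (fun t => ?_) Q.ρ (hfrob Q hQ)).2
    rw [RingHom.comp_apply, RingHom.comp_apply, ← hresπ, ResidueField.map_residue]
  -- glue
  obtain ⟨ρ, -, hbc⟩ := Fermat.Agent.S59.H307.exists_glued_rep (T := T)
    (ι := Fin F.length) (O := fun i => (F.get i).pt.O) h2T
    (fun i => (F.get i).pt.χ) (fun i => hloc _ (List.get_mem F i)) hinj htop
    (fun i => (F.get i).ρ) τ (fun i σ => hτ _ (List.get_mem F i) σ)
    complexConjugation complexConjugation_mul_self hτc ⟨0, hlen⟩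
    (hirr _ (List.get_mem F _))
  -- Frobenius characteristic polynomials
  have hρfrob : FrobCond ρ π := by
    intro ℓ hℓ hℓN hℓS B hB σ hσ
    refine Fermat.Agent.S59.H307.charpoly_eq_of_baseChange_isEquiv
      (fun i => (F.get i).pt.χ) (fun i => hloc _ (List.get_mem F i)) hinj ρ
      (fun i => (F.get i).ρ) hbc σ _ (fun i => ?_)
    rw [hfrob _ (List.get_mem F i) ℓ hℓ hℓN hℓS B hB σ hσ]
    simp only [Polynomial.map_add, Polynomial.map_sub, Polynomial.map_mul, Polynomial.map_pow,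
      Polynomial.map_X, Polynomial.map_C, map_natCast, RingHom.comp_apply]
  -- residual absolute irreducibility
  have habs : ρ.residual.IsAbsolutelyIrreducible :=
    (hRes N S (ResidueField 𝒪) h2k θ hθ T (ResidueField.map (algebraMap 𝒪 T)) π hresπ ρ
      hρfrob).1
  exact ⟨Fermat.Agent.S59.H7.datumOfRep N (↑S : Set ℕ) 𝒪 θ ρ hρfrob habs, rfl⟩

end Main

end Fermat.Agent.S59.G4
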