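import Fermat.Agent.S59.G4.Spec

/-!
# Row S59, layer G4 — interface, part 2 (squad-lead helper7)

After `Spec.lean` was frozen, helper307 landed GLUE (`Fermat.Agent.S59.H307.exists_glued_rep`),
helper540 landed G-DET and full Chebotarev (`Fermat.Agent.Lib.Cheb.chebotarev`) is on main.
Consequences for the pieces of G4:

* DESC is CLOSED (the assembly uses `H307.exists_glued_rep_of_hausdorff` directly);
* ODD is only needed for the Prelude's `complexConjugation` and is done inside the assembly
  (`H540.detIsCyclotomic_of_charpoly_frob` + `complexConjugation_root`);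
* RES is replaced by `ResStatement2` below (general local coefficient ring, so that it also gives
  `residual_absIrr` of the glued representation over `T`; the residual representation lives over
  an arbitrary subfield, so that no base change of absolute irreducibility is needed by the
  caller).

Open pieces of G4: `RedStatement`, `PointsStatement`, `TraceFnStatement` (all in `Spec.lean`) and
`ResStatement2`.
-/

set_option autoImplicit false

open Polynomial IsLocalRing

namespace Fermat.Agent.S59.G4

open Fermat.Agent.S31

/-- **RES2.** Let `θ : 𝕋 → k` be non-Eisenstein (`2 ≠ 0` in `k`), `A` a local ring whose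
residue field receives `k` via `ι`, and `ρ` a representation over `A` whose Frobenius
characteristic polynomials are given by `φ : 𝕋 → A` with `φ ≡ ι ∘ θ` modulo the maximal ideal.
Then the reduction of `ρ` is absolutely irreducible (and irreducible).

Proof sketch: by Chebotarev (`Fermat.Agent.Lib.Cheb.chebotarev`, on the compositum of the two
finite levels) `tr ρ.residual = ι ∘ tr ρ̄` on all of `GQ`; if `ρ.residual ⊗ K` (`K` algebraically
closed) had an invariant line then `tr ρ̄ = χ₁ + χ₂` with characters `χ_i : GQ → Kˣ`; by Burnside
the `K`-span of `ρ̄(GQ)` is `M₂(K)`, and by independence of characters (`2 ≠ 0`) the `χ_i` extend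
to algebra homomorphisms `M₂(K) → K`: absurd. -/
def ResStatement2 : Prop :=
  ∀ (N : ℕ) [NeZero N] (S : Finset ℕ)
    (k : Type) [Field k] (_h2 : (2 : k) ≠ 0)
    (θ : CuspForm.heckeAlgebra N 2 (↑S : Set ℕ) →+* k) (_hθ : NonEisenstein θ)
    (A : Type) [CommRing A] [IsLocalRing A] (ι : k →+* ResidueField A)
    (φ : CuspForm.heckeAlgebra N 2 (↑S : Set ℕ) →+* A)
    (_hφ : ∀ t, residue A (φ t) = ι (θ t))
    (ρ : GaloisRepAdic A), FrobCond ρ φ →
    ρ.residual.IsAbsolutelyIrreducible ∧ ρ.residual.IsIrreducible

end Fermat.Agent.S59.G4
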